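import Mathlib

set_option autoImplicit false

namespace Fermat.Agent.H9

open Polynomial

variable {L : Type*} [Field L]

/-- Kaplansky-style lemma: if `u` is a root of a polynomial with coefficients in the integral
closure `B` of `ℤ` in `L`, one of whose coefficients is a unit of the valuation subring `A`, then
`u` or `u⁻¹` is a fraction `b / c` with `b, c ∈ B` and `c` a unit of `A`. -/
theorem h9_kaplansky (A : ValuationSubring L) (n : ℕ) :
    ∀ (u : L) (p : Polynomial (integralClosure ℤ L)), p.natDegree ≤ n → aeval u p = 0 →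
      (∃ j, ((p.coeff j : integralClosure ℤ L) : L) ∉ A.nonunits) →
      (∃ c : integralClosure ℤ L, (c : L) ∉ A.nonunits ∧ (c : L) * u ∈ integralClosure ℤ L) ∨
      (∃ c : integralClosure ℤ L, (c : L) ∉ A.nonunits ∧
        (c : L) * u⁻¹ ∈ integralClosure ℤ L) := by
  induction n with
  | zero =>
    intro u p hdeg hp ⟨j, hj⟩
    exfalso
    have hpC : p = C (p.coeff 0) := eq_C_of_natDegree_le_zero hdeg
    rw [hpC, aeval_C] at hp
    have h0 : p.coeff 0 = 0 := by
      have : ((p.coeff 0 : integralClosure ℤ L) : L) = 0 := hp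
      exact_mod_cast this
    have hp0 : p = 0 := by rw [hpC, h0, C_0]
    apply hj
    rw [hp0]
    simp only [coeff_zero, ZeroMemClass.coe_zero]
    exact A.nonunits.zero_mem
  | succ n ih =>
    intro u p hdeg hp ⟨j₀, hj₀⟩
    by_cases hdeg' : p.natDegree ≤ n
    · exact ih u p hdeg' hp ⟨j₀, hj₀⟩
    have hdeg_eq : p.natDegree = n + 1 := by omega
    -- the leading coefficient times `u` is integral
    have hint : IsIntegral (integralClosure ℤ L) (p.leadingCoeff • u) :=
      isIntegral_leadingCoeff_smul p u hp
    have hintZ : IsIntegral ℤ (p.leadingCoeff • u) := isIntegral_trans _ hint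
    have hb_mem : (p.leadingCoeff : L) * u ∈ integralClosure ℤ L := by
      have : p.leadingCoeff • u = (p.leadingCoeff : L) * u := rfl
      rw [← this]
      exact hintZ
    by_cases ha : ((p.leadingCoeff : integralClosure ℤ L) : L) ∈ A.nonunits
    swap
    · exact Or.inl ⟨p.leadingCoeff, ha, hb_mem⟩
    set b' : integralClosure ℤ L := ⟨(p.leadingCoeff : L) * u, hb_mem⟩ with hb'
    set q : Polynomial (integralClosure ℤ L) := p.eraseLead + C b' * X ^ n with hq
    have hqdeg : q.natDegree ≤ n := by
      refine (natDegree_add_le _ _).trans (max_le ?_ ?_)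
      · have := eraseLead_natDegree_le p
        omega
      · exact natDegree_C_mul_X_pow_le _ _
    have hpsplit : p = p.eraseLead + C p.leadingCoeff * X ^ (n + 1) := by
      conv_lhs => rw [← eraseLead_add_C_mul_X_pow p, hdeg_eq]
    have hqu : aeval u q = 0 := by
      have h1 : aeval u p = aeval u p.eraseLead + (p.leadingCoeff : L) * u ^ (n + 1) := by
        conv_lhs => rw [hpsplit]
        simp only [map_add, map_mul, aeval_C, map_pow, aeval_X]
        rfl
      have h2 : aeval u q = aeval u p.eraseLead + ((p.leadingCoeff : L) * u) * u ^ n := by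
        rw [hq]
        simp only [map_add, map_mul, aeval_C, map_pow, aeval_X]
        rfl
      rw [h2, mul_assoc, ← pow_succ', ← h1, hp]
    by_cases hqj : ∃ j, ((q.coeff j : integralClosure ℤ L) : L) ∉ A.nonunits
    · exact ih u q hqdeg hqu hqj
    push Not at hqj
    -- all coefficients of `q` are non-units
    have hcoeff : ∀ j, j ≠ n → j ≠ n + 1 → q.coeff j = p.coeff j := by
      intro j hjn hjn1
      rw [hq, coeff_add, coeff_C_mul_X_pow, if_neg hjn, add_zero,
        eraseLead_coeff_of_ne _ (by rw [hdeg_eq]; exact hjn1)]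
    have hj₀n1 : j₀ ≠ n + 1 := by
      rintro rfl
      apply hj₀
      have : p.coeff (n + 1) = p.leadingCoeff := by rw [leadingCoeff, hdeg_eq]
      rw [this]
      exact ha
    have hj₀n : j₀ = n := by
      by_contra hne
      apply hj₀
      rw [← hcoeff j₀ hne hj₀n1]
      exact hqj j₀
    subst hj₀n
    have hqn : q.coeff j₀ = p.coeff j₀ + b' := by
      rw [hq, coeff_add, coeff_C_mul_X_pow, if_pos rfl,
        eraseLead_coeff_of_ne _ (by rw [hdeg_eq]; omega)]
    have hb'nu : ((b' : integralClosure ℤ L) : L) ∉ A.nonunits := by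
      intro hb
      apply hj₀
      have h1 := hqj j₀
      rw [hqn] at h1
      have h2 : ((p.coeff j₀ : integralClosure ℤ L) : L)
          = ((p.coeff j₀ + b' : integralClosure ℤ L) : L) - ((b' : integralClosure ℤ L) : L) := by
        push_cast; ring
      rw [h2]
      exact A.nonunits.sub_mem h1 hb
    have hb'0 : ((b' : integralClosure ℤ L) : L) ≠ 0 := by
      intro h0
      apply hb'nu
      rw [h0]
      exact A.nonunits.zero_mem
    have hu0 : u ≠ 0 := by
      rintro rfl
      apply hb'0
      simp [hb']
    refine Or.inr ⟨b', hb'nu, ?_⟩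
    have : ((b' : integralClosure ℤ L) : L) * u⁻¹ = (p.leadingCoeff : L) := by
      simp only [hb']
      field_simp
    rw [this]
    exact p.leadingCoeff.2

end Fermat.Agent.H9
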