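import Mathlib
import Fermat.Prelude.Def_FLTPrelim_Ramification
import Fermat.Prelude.Def_EllipticCurve_FrobeniusTrace
import Fermat.Agent.S54.Kaplansky

/-!
# Existence of Frobenius elements in `Gal(ℚ̄/ℚ)` (helper9)

For every valuation subring `A` of `ℚ̄` lying over a prime `ℓ` there is `σ ∈ Gal(ℚ̄/ℚ)` with
`A.IsFrobeniusAt σ ℓ`; and such valuation subrings exist.
-/

set_option autoImplicit false
set_option linter.style.haveILetI false

namespace Fermat.Agent.H9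

open Polynomial
open scoped Pointwise

section General

variable {L : Type*} [Field L]

theorem h9_mul_mem_nonunits (A : ValuationSubring L) {x y : L} (hx : x ∈ A.nonunits)
    (hy : y ∈ A) : x * y ∈ A.nonunits := by
  rw [A.mem_nonunits_iff] at hx ⊢
  rw [map_mul]
  have hy' := (A.valuation_le_one_iff y).mpr hy
  calc A.valuation x * A.valuation y ≤ A.valuation x * 1 := by gcongr
    _ = A.valuation x := mul_one _
    _ < 1 := hx

theorem h9_one_not_mem_nonunits (A : ValuationSubring L) : (1 : L) ∉ A.nonunits := by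
  intro h
  have : A.valuation (1 : L) < 1 := A.mem_nonunits_iff.mp h
  simp at this

theorem h9_intCast_not_mem_nonunits (A : ValuationSubring L) {ℓ : ℕ} (hℓ : ℓ.Prime)
    (hA : (ℓ : L) ∈ A.nonunits) {a : ℤ} (ha : ¬ (ℓ : ℤ) ∣ a) : (a : L) ∉ A.nonunits := by
  intro h
  have hcop : IsCoprime a (ℓ : ℤ) := by
    rw [Int.isCoprime_iff_gcd_eq_one]
    have := (Int.prime_iff_natAbs_prime.mpr (by simpa using hℓ)).coprime_iff_not_dvd.mpr ha
    rw [Int.isCoprime_iff_gcd_eq_one] at this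
    rwa [Int.gcd_comm]
  obtain ⟨s, t, hst⟩ := hcop
  have h1 : ((s : L) * (a : L) + (t : L) * (ℓ : L)) = 1 := by
    have := congrArg (fun z : ℤ => (z : L)) hst
    push_cast at this
    exact this
  have h2 : ((s : L) * (a : L) + (t : L) * (ℓ : L)) ∈ A.nonunits := by
    apply A.nonunits.add_mem
    · rw [mul_comm]; exact h9_mul_mem_nonunits A h (intCast_mem A s)
    · rw [mul_comm]; exact h9_mul_mem_nonunits A hA (intCast_mem A t)
  rw [h1] at h2
  exact h9_one_not_mem_nonunits A h2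

/-- Every element of a valuation subring `A` of `L` lying over `ℓ`, algebraic over `ℤ`,
is a fraction `b / c` with `b, c` integral over `ℤ` and `c` a unit of `A`. -/
theorem h9_exists_unit_mul_mem [CharZero L] (A : ValuationSubring L) {ℓ : ℕ} (hℓ : ℓ.Prime)
    (hA : (ℓ : L) ∈ A.nonunits) (u : L) (hu : u ∈ A) (halg : IsAlgebraic ℤ u) :
    ∃ c : integralClosure ℤ L, (c : L) ∉ A.nonunits ∧ (c : L) * u ∈ integralClosure ℤ L := by
  obtain ⟨p, hp0, hpu⟩ := halg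
  have hprim : p.primPart.IsPrimitive := isPrimitive_primPart p
  have hpu' : aeval u p.primPart = 0 := aeval_primPart_eq_zero (S := L) hp0 hpu
  have hex : ∃ j, ¬ (ℓ : ℤ) ∣ p.primPart.coeff j := by
    by_contra hall
    push Not at hall
    have hdvd : C (ℓ : ℤ) ∣ p.primPart := (C_dvd_iff_dvd_coeff _ _).mpr hall
    have hunit := hprim _ hdvd
    have : (ℓ : ℤ) = 1 ∨ (ℓ : ℤ) = -1 := Int.isUnit_iff.mp hunit
    have h2 := hℓ.two_le
    omega
  obtain ⟨j, hj⟩ := hex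
  set P : Polynomial (integralClosure ℤ L) := p.primPart.map (algebraMap ℤ (integralClosure ℤ L))
    with hP
  have hPu : aeval u P = 0 := by
    rw [hP, aeval_map_algebraMap]
    exact hpu'
  have hPj : ((P.coeff j : integralClosure ℤ L) : L) ∉ A.nonunits := by
    rw [hP, coeff_map]
    have : ((algebraMap ℤ (integralClosure ℤ L) (p.primPart.coeff j) : integralClosure ℤ L) : L)
        = ((p.primPart.coeff j : ℤ) : L) := by
      simp
    rw [this]
    exact h9_intCast_not_mem_nonunits A hℓ hA hj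
  rcases h9_kaplansky A P.natDegree u P le_rfl hPu ⟨j, hPj⟩ with h | ⟨c, hc, hcu⟩
  · exact h
  · by_cases hu0 : u = 0
    · subst hu0
      exact ⟨1, by simpa using h9_one_not_mem_nonunits A, by simp⟩
    · set b : integralClosure ℤ L := ⟨(c : L) * u⁻¹, hcu⟩ with hb
      by_cases hbnu : ((b : integralClosure ℤ L) : L) ∈ A.nonunits
      · exfalso
        apply hc
        have : (c : L) = (b : L) * u := by
          simp only [hb]
          field_simp
        rw [this]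
        exact h9_mul_mem_nonunits A hbnu hu
      · refine ⟨b, hbnu, ?_⟩
        have : (b : L) * u = (c : L) := by
          simp only [hb]
          field_simp
        rw [this]
        exact c.2

theorem h9_mem_of_isIntegral (A : ValuationSubring L) {b : L} (hb : IsIntegral ℤ b) : b ∈ A := by
  have h1 : IsIntegral A b := hb.tower_top
  obtain ⟨y, hy⟩ := IsIntegrallyClosed.isIntegral_iff.mp h1
  rw [← hy]
  exact y.2

/-- The `ℓ`-power Frobenius as an automorphism of `B ⧸ Q` over `ℤ ⧸ (ℓ)`, for `B` integral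
over `ℤ` and `Q` a prime over `ℓ`. -/
theorem h9_exists_frobenius_algEquiv {B : Type*} [CommRing B] [Algebra ℤ B]
    [Algebra.IsIntegral ℤ B]
    {ℓ : ℕ} (hℓ : ℓ.Prime) (Q : Ideal B) [Q.IsPrime] [Q.LiesOver (Ideal.span {(ℓ : ℤ)})] :
    ∃ φ : (B ⧸ Q) ≃ₐ[ℤ ⧸ (Ideal.span {(ℓ : ℤ)})] (B ⧸ Q), ∀ x, φ x = x ^ ℓ := by
  have hirr : Irreducible (ℓ : ℤ) := (Nat.prime_iff_prime_int.mp hℓ).irreducible
  haveI hPmax : (Ideal.span {(ℓ : ℤ)}).IsMaximal :=
    PrincipalIdealRing.isMaximal_of_irreducible hirr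
  haveI hQmax : Q.IsMaximal := Ideal.IsMaximal.of_liesOver_isMaximal Q (Ideal.span {(ℓ : ℤ)})
  letI : Field (ℤ ⧸ Ideal.span {(ℓ : ℤ)}) := Ideal.Quotient.field _
  letI : Field (B ⧸ Q) := Ideal.Quotient.field Q
  haveI : Finite (ℤ ⧸ Ideal.span {(ℓ : ℤ)}) := by
    haveI : NeZero ℓ := ⟨hℓ.ne_zero⟩
    exact Finite.of_equiv _ (Int.quotientSpanNatEquivZMod ℓ).symm.toEquiv
  haveI : PerfectField (B ⧸ Q) := Algebra.IsAlgebraic.perfectField (ℤ ⧸ Ideal.span {(ℓ : ℤ)})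
  have hℓQ : ((ℓ : ℤ) : B) ∈ Q := by
    have : (ℓ : ℤ) ∈ Q.under ℤ := by
      rw [← Ideal.over_def Q (Ideal.span {(ℓ : ℤ)})]
      exact Ideal.subset_span rfl
    simpa [Ideal.under_def] using this
  haveI : CharP (B ⧸ Q) ℓ := by
    rw [CharP.charP_iff_prime_eq_zero hℓ]
    have : (Ideal.Quotient.mk Q) ((ℓ : ℤ) : B) = 0 := Ideal.Quotient.eq_zero_iff_mem.mpr hℓQ
    simpa using this
  haveI : ExpChar (B ⧸ Q) ℓ := ExpChar.prime hℓ
  haveI : PerfectRing (B ⧸ Q) ℓ := PerfectField.toPerfectRing ℓ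
  refine ⟨{ frobeniusEquiv (B ⧸ Q) ℓ with commutes' := ?_ }, fun x => ?_⟩
  · intro r
    obtain ⟨a, rfl⟩ := Ideal.Quotient.mk_surjective r
    show (frobeniusEquiv (B ⧸ Q) ℓ) _ = _
    rw [frobeniusEquiv_apply, frobenius_def, ← map_pow]
    congr 1
    rw [← map_pow]
    apply Ideal.Quotient.eq.mpr
    rw [Ideal.mem_span_singleton]
    haveI : Fact ℓ.Prime := ⟨hℓ⟩
    exact (ZMod.intCast_zmod_eq_zero_iff_dvd (a ^ ℓ - a) ℓ).mp (by
      push_cast; rw [ZMod.pow_card, sub_self])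
  · show (frobeniusEquiv (B ⧸ Q) ℓ) x = x ^ ℓ
    rw [frobeniusEquiv_apply, frobenius_def]

end General

local notation "Qb" => AlgebraicClosure ℚ
local notation "Γ" => (AlgebraicClosure ℚ ≃ₐ[ℚ] AlgebraicClosure ℚ)
local notation "𝔹" => integralClosure ℤ (AlgebraicClosure ℚ)

local instance h9_isAlgebraicQbar : Algebra.IsAlgebraic ℚ (AlgebraicClosure ℚ) :=
  AlgebraicClosure.isAlgebraic ℚ
local instance h9_isAlgClosureQbar : IsAlgClosure ℚ (AlgebraicClosure ℚ) :=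
  ⟨inferInstance, inferInstance⟩

theorem h9_isInvariant : Algebra.IsInvariant ℤ 𝔹 Γ := by
  refine ⟨fun b hb => ?_⟩
  have hfix : ∀ g : Γ, g (b : Qb) = (b : Qb) := fun g => by
    have := congrArg (fun x : 𝔹 => (x : Qb)) (hb g)
    simpa using this
  have hmem : (b : Qb) ∈ (⊥ : IntermediateField ℚ Qb) := by
    rw [InfiniteGalois.mem_bot_iff_fixed]
    exact hfix
  rw [IntermediateField.mem_bot] at hmem
  obtain ⟨q, hq⟩ := hmem
  have hint : IsIntegral ℤ (algebraMap ℚ Qb q) := by rw [hq]; exact b.2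
  have hintq : IsIntegral ℤ q := (isIntegral_algebraMap_iff (algebraMap ℚ Qb).injective).mp hint
  obtain ⟨m, hm⟩ := IsIntegrallyClosed.isIntegral_iff.mp hintq
  refine ⟨m, ?_⟩
  apply Subtype.ext
  rw [← hq, ← hm]
  simp

theorem h9_isAlgebraic_int (u : Qb) : IsAlgebraic ℤ u := by
  have h : IsAlgebraic ℚ u := Algebra.IsAlgebraic.isAlgebraic u
  exact (IsFractionRing.isAlgebraic_iff ℤ ℚ Qb).mpr h

/-- Core existence statement: an element of the Galois group stabilising the prime `Q` of `𝔹`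
cut out by `A` and acting as the `ℓ`-power map modulo `Q`. -/
theorem h9_exists_frobenius_on_integers (A : ValuationSubring Qb) {ℓ : ℕ} (hℓ : ℓ.Prime)
    (hA : (ℓ : Qb) ∈ A.nonunits) :
    ∃ σ : Γ, (∀ b : 𝔹, (σ (b : Qb)) ∈ A.nonunits ↔ (b : Qb) ∈ A.nonunits) ∧
      ∀ b : 𝔹, σ (b : Qb) - (b : Qb) ^ ℓ ∈ A.nonunits := by
  classical
  have hBA : ∀ b : 𝔹, (b : Qb) ∈ A := fun b => h9_mem_of_isIntegral A b.2
  let f : 𝔹 →+* A :=
    { toFun := fun b => ⟨(b : Qb), hBA b⟩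
      map_one' := rfl
      map_mul' := fun _ _ => rfl
      map_zero' := rfl
      map_add' := fun _ _ => rfl }
  let Q : Ideal 𝔹 := (IsLocalRing.maximalIdeal A).comap f
  have hQmem : ∀ b : 𝔹, b ∈ Q ↔ (b : Qb) ∈ A.nonunits := fun b => by
    show f b ∈ IsLocalRing.maximalIdeal A ↔ _
    rw [← ValuationSubring.coe_mem_nonunits_iff]
    exact Iff.rfl
  haveI hQprime : Q.IsPrime := Ideal.comap_isPrime f _
  have hirr : Irreducible (ℓ : ℤ) := (Nat.prime_iff_prime_int.mp hℓ).irreducible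
  haveI hPmax : (Ideal.span {(ℓ : ℤ)}).IsMaximal :=
    PrincipalIdealRing.isMaximal_of_irreducible hirr
  haveI hLO : Q.LiesOver (Ideal.span {(ℓ : ℤ)}) := by
    refine ⟨?_⟩
    have hle : Ideal.span {(ℓ : ℤ)} ≤ Q.under ℤ := by
      rw [Ideal.span_singleton_le_iff_mem, Ideal.under_def, Ideal.mem_comap, hQmem]
      simpa using hA
    have hne : Q.under ℤ ≠ ⊤ := by
      intro htop
      have h1 : (1 : ℤ) ∈ Q.under ℤ := by rw [htop]; trivial
      rw [Ideal.under_def, Ideal.mem_comap, hQmem] at h1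
      exact h9_one_not_mem_nonunits A (by simpa using h1)
    exact hPmax.eq_of_le hne hle
  letI : TopologicalSpace 𝔹 := ⊥
  haveI : DiscreteTopology 𝔹 := ⟨rfl⟩
  haveI : ContinuousSMul Γ 𝔹 := by
    rw [continuousSMul_iff_stabilizer_isOpen]
    intro x
    have h := stabilizer_isOpen_of_isIntegral (K := ℚ) (L := Qb) (x : Qb)
    convert h using 1
    ext g
    simp only [SetLike.mem_coe, MulAction.mem_stabilizer_iff]
    constructor
    · intro hg
      have := congrArg (fun y : 𝔹 => (y : Qb)) hg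
      simpa using this
    · intro hg
      apply Subtype.ext
      simpa using hg
  haveI := h9_isInvariant
  haveI : Algebra.IsIntegral ℤ 𝔹 := ⟨fun x => integralClosure.isIntegral x⟩
  obtain ⟨φ, hφ⟩ := h9_exists_frobenius_algEquiv hℓ Q
  obtain ⟨⟨σ, hσQ⟩, hσ⟩ :=
    Ideal.Quotient.stabilizerHom_surjective_of_profinite (G := Γ) (Ideal.span {(ℓ : ℤ)}) Q φ
  refine ⟨σ, fun b => ?_, fun b => ?_⟩
  · rw [MulAction.mem_stabilizer_iff] at hσQ
    have h1 : σ • b ∈ σ • Q ↔ b ∈ Q := Ideal.smul_mem_pointwise_smul_iff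
    rw [hσQ, hQmem, hQmem] at h1
    exact h1
  · have h1 := congrArg (fun ψ : (𝔹 ⧸ Q) ≃ₐ[ℤ ⧸ (Ideal.span {(ℓ : ℤ)})] (𝔹 ⧸ Q) =>
      ψ (Ideal.Quotient.mk Q b)) hσ
    simp only [Ideal.Quotient.stabilizerHom_apply, hφ] at h1
    rw [← map_pow] at h1
    have h2 : ((⟨σ, hσQ⟩ : MulAction.stabilizer Γ Q) • b) - b ^ ℓ ∈ Q :=
      Ideal.Quotient.eq.mp h1
    rw [hQmem] at h2
    exact h2

/-- **Existence of Frobenius elements**: for every valuation subring `A` of `ℚ̄` lying over a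
prime `ℓ`, some `σ ∈ Gal(ℚ̄/ℚ)` is a Frobenius element at `A`. -/
theorem h9_exists_isFrobeniusAt (A : ValuationSubring Qb) {ℓ : ℕ} (hℓ : ℓ.Prime)
    (hA : A.LiesOverPrime ℓ) : ∃ σ : Γ, A.IsFrobeniusAt σ ℓ := by
  have hA' : (ℓ : Qb) ∈ A.nonunits := hA
  obtain ⟨σ, hσ1, hσ2⟩ := h9_exists_frobenius_on_integers A hℓ hA'
  -- `σ` maps `A` into `A`
  have hstab : ∀ τ : Γ, (∀ b : 𝔹, (τ (b : Qb)) ∈ A.nonunits ↔ (b : Qb) ∈ A.nonunits) →
      ∀ x ∈ A, τ x ∈ A := by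
    intro τ hτ x hx
    obtain ⟨c, hc, hcx⟩ := h9_exists_unit_mul_mem A hℓ hA' x hx (h9_isAlgebraic_int x)
    have hτc : τ (c : Qb) ∉ A.nonunits := fun h => hc ((hτ c).mp h)
    have hτcA : τ (c : Qb) ∈ A :=
      h9_mem_of_isIntegral A (c.2.map (τ : Qb →ₐ[ℚ] Qb).toRingHom.toIntAlgHom)
    have hτcx : τ ((c : Qb) * x) ∈ A :=
      h9_mem_of_isIntegral A
        ((show IsIntegral ℤ ((c : Qb) * x) from hcx).map (τ : Qb →ₐ[ℚ] Qb).toRingHom.toIntAlgHom)
    rw [map_mul] at hτcx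
    -- `τ c` is a unit of `A`
    have hinv : (τ (c : Qb))⁻¹ ∈ A := by
      by_contra hni
      exact hτc ((A.mem_nonunits_iff_or).mpr (Or.inr hni))
    have hτc0 : τ (c : Qb) ≠ 0 := by
      intro h0
      apply hτc
      rw [h0]
      exact A.nonunits.zero_mem
    have : τ x = (τ (c : Qb))⁻¹ * (τ (c : Qb) * τ x) := by
      field_simp
    rw [this]
    exact A.mul_mem _ _ hinv hτcx
  have hσinv : ∀ b : 𝔹, (σ⁻¹ (b : Qb)) ∈ A.nonunits ↔ (b : Qb) ∈ A.nonunits := by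
    intro b
    have hb' : IsIntegral ℤ (σ⁻¹ (b : Qb)) :=
      b.2.map ((σ⁻¹ : Γ) : Qb →ₐ[ℚ] Qb).toRingHom.toIntAlgHom
    have := hσ1 ⟨σ⁻¹ (b : Qb), hb'⟩
    simp only at this
    rw [← this]
    have : σ (σ⁻¹ (b : Qb)) = (b : Qb) := by
      show (σ * σ⁻¹) (b : Qb) = _
      simp
    rw [this]
  have hmemD : σ ∈ A.decompositionSubgroup ℚ := by
    rw [MulAction.mem_stabilizer_iff]
    apply le_antisymm
    · intro x hx
      rw [ValuationSubring.mem_pointwise_smul_iff_inv_smul_mem] at hx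
      have := hstab σ hσ1 _ hx
      simpa using this
    · intro x hx
      rw [ValuationSubring.mem_pointwise_smul_iff_inv_smul_mem]
      exact hstab σ⁻¹ hσinv x hx
  refine ⟨σ, hmemD, fun x => ?_⟩
  obtain ⟨a, rfl⟩ := IsLocalRing.residue_surjective x
  rw [← IsLocalRing.ResidueField.residue_smul, ← map_pow]
  rw [← sub_eq_zero, ← map_sub, IsLocalRing.residue_eq_zero_iff,
    ← ValuationSubring.coe_mem_nonunits_iff]
  show σ (a : Qb) - (a : Qb) ^ ℓ ∈ A.nonunits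
  obtain ⟨c, hc, hcx⟩ := h9_exists_unit_mul_mem A hℓ hA' (a : Qb) a.2 (h9_isAlgebraic_int _)
  set b : 𝔹 := ⟨(c : Qb) * (a : Qb), hcx⟩ with hb
  have hσc : σ (c : Qb) ∉ A.nonunits := fun h => hc ((hσ1 c).mp h)
  have hσcA : σ (c : Qb) ∈ A :=
    h9_mem_of_isIntegral A (c.2.map (σ : Qb →ₐ[ℚ] Qb).toRingHom.toIntAlgHom)
  have hinv : (σ (c : Qb))⁻¹ ∈ A := by
    by_contra hni
    exact hσc ((A.mem_nonunits_iff_or).mpr (Or.inr hni))
  have hσc0 : σ (c : Qb) ≠ 0 := by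
    intro h0
    apply hσc
    rw [h0]
    exact A.nonunits.zero_mem
  have h1 := hσ2 b
  have h2 := hσ2 c
  have hkey : σ (c : Qb) * (σ (a : Qb) - (a : Qb) ^ ℓ)
      = (σ (b : Qb) - (b : Qb) ^ ℓ) - (σ (c : Qb) - (c : Qb) ^ ℓ) * (a : Qb) ^ ℓ := by
    simp only [hb, map_mul]
    ring
  have hmem : σ (c : Qb) * (σ (a : Qb) - (a : Qb) ^ ℓ) ∈ A.nonunits := by
    rw [hkey]
    exact A.nonunits.sub_mem h1 (h9_mul_mem_nonunits A h2 (pow_mem a.2 ℓ))
  have : σ (a : Qb) - (a : Qb) ^ ℓ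
      = (σ (c : Qb) * (σ (a : Qb) - (a : Qb) ^ ℓ)) * (σ (c : Qb))⁻¹ := by
    field_simp
  rw [this]
  exact h9_mul_mem_nonunits A hmem hinv

end Fermat.Agent.H9

namespace Fermat.Agent.H9

/-- There is a valuation subring of `ℚ̄` lying over any given prime `ℓ`. -/
theorem h9_exists_valuationSubring_liesOver {ℓ : ℕ} (hℓ : ℓ.Prime) :
    ∃ A : ValuationSubring (AlgebraicClosure ℚ), A.LiesOverPrime ℓ := by
  let A₀ : Subring (AlgebraicClosure ℚ) := (Int.castRingHom (AlgebraicClosure ℚ)).range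
  let x : A₀ := ⟨(ℓ : AlgebraicClosure ℚ), ⟨(ℓ : ℤ), by simp⟩⟩
  have hI : Ideal.span {x} ≠ ⊤ := by
    intro htop
    rw [Ideal.span_singleton_eq_top] at htop
    obtain ⟨⟨y, m, hm⟩, hy⟩ := isUnit_iff_exists_inv.mp htop
    have h1 : (ℓ : AlgebraicClosure ℚ) * y = 1 := congrArg Subtype.val hy
    rw [← hm] at h1
    have h2 : ((ℓ * m : ℤ) : AlgebraicClosure ℚ) = ((1 : ℤ) : AlgebraicClosure ℚ) := by
      push_cast
      simpa using h1
    have h3 : (ℓ : ℤ) * m = 1 := Int.cast_injective h2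
    have h4 : (ℓ : ℤ) ∣ 1 := ⟨m, h3.symm⟩
    have h5 : (ℓ : ℤ) ≤ 1 := Int.le_of_dvd one_pos h4
    have := hℓ.two_le
    omega
  obtain ⟨V, -, hV⟩ := Ideal.image_subset_nonunits_valuationSubring (Ideal.span {x}) hI
  exact ⟨V, hV ⟨x, Ideal.subset_span rfl, rfl⟩⟩

/-- Frobenius elements exist at every prime: the form consumed by the `S54` glue. -/
theorem h9_exists_liesOver_isFrobeniusAt (ℓ : ℕ) (hℓ : ℓ.Prime) :
    ∃ (A : ValuationSubring (AlgebraicClosure ℚ))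
      (σ : AlgebraicClosure ℚ ≃ₐ[ℚ] AlgebraicClosure ℚ),
      A.LiesOverPrime ℓ ∧ A.IsFrobeniusAt σ ℓ := by
  obtain ⟨A, hA⟩ := h9_exists_valuationSubring_liesOver hℓ
  obtain ⟨σ, hσ⟩ := h9_exists_isFrobeniusAt A hℓ hA
  exact ⟨A, σ, hA, hσ⟩

end Fermat.Agent.H9
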